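/-
Van der Waerden's theorem with bounded common difference, from Hales-Jewett.
-/
import Mathlib.Combinatorics.HalesJewett
import Mathlib.Algebra.BigOperators.Fin

set_option autoImplicit false

namespace Fermat.Agent.Switch3

open Combinatorics

/-- For a finite colouring of `ℕ` there are monochromatic progressions of length `m`, with bounded
common difference, starting beyond any given point. -/
theorem exists_mono_progression (κ : Type) [Finite κ] (m : ℕ) :
    ∃ L : ℕ, ∀ (C : ℕ → κ) (b₀ : ℕ), ∃ a b : ℕ, ∃ c : κ,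
      1 ≤ a ∧ a ≤ L ∧ b₀ ≤ b ∧ ∀ j : ℕ, j < m → C (b + j * a) = c := by
  obtain ⟨ι, _inst, hι⟩ := Line.exists_mono_in_high_dimension (Fin m) κ
  refine ⟨Fintype.card ι, fun C b₀ => ?_⟩
  classical
  obtain ⟨l, c, hl⟩ := hι fun v => C (b₀ + ∑ i, (v i : ℕ))
  obtain ⟨i₀, hi₀⟩ := l.proper
  set s : Finset ι := {i | l.idxFun i = none} with hs
  refine ⟨s.card, b₀ + ∑ i ∈ sᶜ, ((l.idxFun i).map Fin.val).getD 0, c, ?_, Finset.card_le_univ s,
    Nat.le_add_right _ _, fun j hj => ?_⟩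
  · exact Finset.card_pos.mpr ⟨i₀, by simp [hs, hi₀]⟩
  · rw [← hl ⟨j, hj⟩]
    congr 1
    rw [← Finset.sum_add_sum_compl s (fun i => ((l ⟨j, hj⟩ i : Fin m) : ℕ))]
    have h1 : ∑ i ∈ s, ((l ⟨j, hj⟩ i : Fin m) : ℕ) = s.card * j := by
      rw [Finset.sum_eq_card_nsmul (b := j) (fun i hi => ?_), smul_eq_mul]
      rw [hs, Finset.mem_filter] at hi
      rw [l.apply_none _ _ hi.2]
    have h2 : ∑ i ∈ sᶜ, ((l ⟨j, hj⟩ i : Fin m) : ℕ)
        = ∑ i ∈ sᶜ, ((l.idxFun i).map Fin.val).getD 0 := by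
      refine Finset.sum_congr rfl fun i hi => ?_
      rw [hs, Finset.compl_filter, Finset.mem_filter] at hi
      obtain ⟨y, hy⟩ := Option.ne_none_iff_exists.mp hi.2
      rw [l.apply_some hy.symm, ← hy]
      simp
    rw [h1, h2, mul_comm s.card j]
    omega

end Fermat.Agent.Switch3
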