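/-
If, for every large `n`, one of finitely many functions `n ↦ n ^ d * φ i (1 / n)`, with `φ i`
analytic at `0`, takes an integer value, then one of them is a polynomial with rational
coefficients.
-/
import Fermat.Agent.Switch3.Progression
import Mathlib.Algebra.Group.ForwardDiff
import Mathlib.Analysis.Analytic.IsolatedZeros
import Mathlib.Analysis.Complex.Basic
import Mathlib.LinearAlgebra.Lagrange
import Mathlib.Analysis.SpecificLimits.Basic

set_option autoImplicit false

namespace Fermat.Agent.Switch3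

open Filter Topology Polynomial

/-- polynomial part and remainder at infinity -/
lemma exists_expansion (d : ℕ) (φ : ℂ → ℂ) (h : AnalyticAt ℂ φ 0) :
    ∃ (P : ℂ[X]) (ψ : ℂ → ℂ), P.natDegree ≤ d ∧ AnalyticAt ℂ ψ 0 ∧
      ∀ z : ℂ, z ≠ 0 → z⁻¹ ^ d * φ z = P.eval z⁻¹ + z * ψ z := by
  induction d generalizing φ with
  | zero =>
    obtain ⟨p, hp⟩ := h
    refine ⟨C (φ 0), dslope φ 0, by simp, ⟨_, hp.has_fpower_series_dslope_fslope⟩, fun z hz => ?_⟩
    have := sub_smul_dslope φ 0 z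
    simp only [sub_zero, smul_eq_mul] at this
    simp only [pow_zero, one_mul, eval_C, this]
    ring
  | succ d ih =>
    obtain ⟨p, hp⟩ := h
    obtain ⟨P, ψ, hP, hψ, hPψ⟩ := ih (dslope φ 0) ⟨_, hp.has_fpower_series_dslope_fslope⟩
    refine ⟨C (φ 0) * X ^ (d + 1) + P, ψ, ?_, hψ, fun z hz => ?_⟩
    · refine (natDegree_add_le _ _).trans (max_le (natDegree_C_mul_X_pow_le _ _) (by omega))
    have h2 := hPψ z hz
    have h1 := sub_smul_dslope φ 0 z
    simp only [sub_zero, smul_eq_mul] at h1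
    have h3 : z⁻¹ * z = 1 := inv_mul_cancel₀ hz
    simp only [eval_add, eval_mul, eval_C, eval_pow, eval_X, pow_succ]
    linear_combination h2 - z⁻¹ ^ d * z⁻¹ * h1 + z⁻¹ ^ d * dslope φ 0 z * h3

/-- a sequence tending to zero which satisfies `Δ ^ k = 0` is zero -/
lemma eq_zero_of_fwdDiff_iter_eq_zero (k : ℕ) (s : ℕ → ℂ) (h0 : Tendsto s atTop (𝓝 0))
    (h : ∀ j, (fwdDiff 1)^[k] s j = 0) : ∀ j, s j = 0 := by
  induction k generalizing s with
  | zero => simpa using h
  | succ k ih =>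
    have hd : ∀ j, fwdDiff 1 s j = 0 := by
      refine ih (fwdDiff 1 s) ?_ (fun j => ?_)
      · have := (h0.comp (tendsto_add_atTop_nat 1)).sub h0
        rw [sub_zero] at this
        exact this
      · simpa [Function.iterate_succ_apply] using h j
    have hc : ∀ j, s j = s 0 := by
      intro j
      induction j with
      | zero => rfl
      | succ j hj =>
        have := hd j
        rw [fwdDiff, sub_eq_zero] at this
        rw [this, hj]
    have : s 0 = 0 :=
      tendsto_nhds_unique (tendsto_const_nhds.congr fun j => (hc j).symm) h0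
    intro j; rw [hc j, this]

/-- The main statement. -/
theorem exists_poly_branch {ι : Type} [Finite ι] (d : ℕ) (φ : ι → ℂ → ℂ)
    (hφ : ∀ i, AnalyticAt ℂ (φ i) 0) (N : ℕ)
    (hits : ∀ n : ℕ, N ≤ n → ∃ i, ∃ y : ℤ, (n : ℂ) ^ d * φ i ((n : ℂ)⁻¹) = y) :
    ∃ (i : ι) (P : ℚ[X]) (N' : ℕ), ∀ n : ℕ, N' ≤ n →
      (n : ℂ) ^ d * φ i ((n : ℂ)⁻¹) = P.eval₂ (algebraMap ℚ ℂ) (n : ℂ) := by
  classical
  haveI : Fintype ι := Fintype.ofFinite ι
  choose P ψ hP hψ hPψ using fun i => exists_expansion d (φ i) (hφ i)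
  set N1 := max N 1 with hN1
  choose col y hy using fun n : ℕ => hits (n + N1) (by omega)
  set R : ι → ℂ → ℂ := fun i z => z * ψ i z with hR
  have hRan : ∀ i, AnalyticAt ℂ (R i) 0 := fun i => analyticAt_id.mul (hψ i)
  set S : ι → ℕ → ℂ := fun i n => R i ((n : ℂ)⁻¹) with hS
  set G : ι → ℕ → ℂ := fun i n => (n : ℂ) ^ d * φ i ((n : ℂ)⁻¹) with hG
  have hGS : ∀ (i : ι) (n : ℕ), 1 ≤ n → G i n = (P i).eval (n : ℂ) + S i n := by
    intro i n hn
    have := hPψ i ((n : ℂ)⁻¹) (inv_ne_zero (Nat.cast_ne_zero.mpr (by omega)))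
    simpa [hG, hS, hR] using this
  have hS0 : ∀ i, Tendsto (S i) atTop (𝓝 0) := by
    intro i
    have h1 : Tendsto (R i) (𝓝 0) (𝓝 0) := by
      have := (hRan i).continuousAt.tendsto
      simpa [hR] using this
    exact h1.comp (tendsto_inv_atTop_nhds_zero_nat (𝕜 := ℂ))
  obtain ⟨L, hL⟩ := exists_mono_progression ι (d + 2)
  -- the difference operator with step `a`, as an analytic function of `1/n`
  set H : ι → ℕ → ℂ → ℂ := fun i a z => ∑ j ∈ Finset.range (d + 2),
    ((-1 : ℤ) ^ (d + 1 - j) * ((d + 1).choose j : ℤ) : ℤ) • R i (z / (1 + (j * a : ℕ) * z)) with hH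
  have hHan : ∀ i a, AnalyticAt ℂ (H i a) 0 := by
    intro i a
    rw [hH]
    refine Finset.analyticAt_fun_sum _ fun j _ => ?_
    have h1 : AnalyticAt ℂ (fun z : ℂ => z / (1 + (j * a : ℕ) * z)) 0 :=
      analyticAt_id.div (analyticAt_const.add (analyticAt_const.mul analyticAt_id)) (by simp)
    simp only [zsmul_eq_mul]
    exact analyticAt_const.mul ((hRan i).comp_of_eq h1 (by simp))
  have hHS : ∀ (i : ι) (a n : ℕ), 1 ≤ n → H i a ((n : ℂ)⁻¹) = (fwdDiff a)^[d + 1] (S i) n := by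
    intro i a n hn
    rw [hH, fwdDiff_iter_eq_sum_shift]
    refine Finset.sum_congr rfl fun j _ => ?_
    congr 1
    simp only [hS, smul_eq_mul]
    congr 1
    have hn0 : (n : ℂ) ≠ 0 := Nat.cast_ne_zero.mpr (by omega)
    have hn1 : ((n + j * a : ℕ) : ℂ) ≠ 0 := Nat.cast_ne_zero.mpr (by omega)
    push_cast at hn1 ⊢
    field_simp
  -- small differences
  have hsmall : ∀ᶠ n in atTop, ∀ i, ∀ a ∈ Finset.Icc 1 L, ‖(fwdDiff a)^[d + 1] (S i) n‖ < 1 := by
    rw [Filter.eventually_all]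
    intro i
    rw [Filter.eventually_all_finset]
    intro a _
    have ht : Tendsto (fun n : ℕ => H i a ((n : ℂ)⁻¹)) atTop (𝓝 0) := by
      have h1 := ((hHan i a).continuousAt.tendsto).comp (tendsto_inv_atTop_nhds_zero_nat (𝕜 := ℂ))
      have h2 : H i a 0 = 0 := by simp [hH, hR]
      rwa [h2] at h1
    filter_upwards [(NormedAddGroup.tendsto_nhds_zero.mp ht) 1 one_pos, eventually_ge_atTop 1]
      with n hn h1
    rwa [hHS i a n h1] at hn
  obtain ⟨N2, hN2⟩ := eventually_atTop.mp hsmall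
  -- progressions in one colour
  have hprog : ∀ b₀ : ℕ, ∃ n, b₀ ≤ n ∧ ∃ i, ∃ a ∈ Finset.Icc 1 L,
      (∀ j < d + 2, ∃ y : ℤ, G i (n + j * a) = y) ∧ (fwdDiff a)^[d + 1] (S i) n = 0 := by
    intro b₀
    obtain ⟨a, b, c, ha1, haL, hb, hc⟩ := hL col (max b₀ N2)
    refine ⟨b + N1, by omega, c, a, Finset.mem_Icc.mpr ⟨ha1, haL⟩, ?_, ?_⟩
    · intro j hj
      refine ⟨y (b + j * a), ?_⟩
      have := hy (b + j * a)
      rw [hc j hj] at this
      rw [show b + N1 + j * a = b + j * a + N1 by omega]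
      exact this
    set Q : ℂ[X] := (P c).comp (C ((b + N1 : ℕ) : ℂ) + C (a : ℂ) * X) with hQ
    have hQd : Q.natDegree < d + 1 := by
      refine Nat.lt_succ_of_le ?_
      rw [hQ, natDegree_comp]
      have : (C ((b + N1 : ℕ) : ℂ) + C (a : ℂ) * X).natDegree ≤ 1 := by
        refine (natDegree_add_le _ _).trans (max_le (le_of_eq_of_le (natDegree_C _) zero_le_one) ?_)
        exact (natDegree_C_mul_le _ _).trans natDegree_X.le
      exact le_trans (Nat.mul_le_mul (hP c) this) (by simp)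
    have h1 : (fwdDiff a)^[d + 1] (fun n : ℕ => (P c).eval (n : ℂ)) (b + N1) = 0 := by
      have := congr_fun (Polynomial.fwdDiff_iter_eq_zero_of_degree_lt hQd) 0
      rw [fwdDiff_iter_eq_sum_shift, Pi.zero_apply] at this
      rw [fwdDiff_iter_eq_sum_shift]
      rw [← this]
      refine Finset.sum_congr rfl fun j _ => ?_
      simp [hQ, eval_comp, mul_comm]
    have h2 : ∃ m : ℤ, (fwdDiff a)^[d + 1] (G c) (b + N1) = m := by
      refine ⟨∑ j ∈ Finset.range (d + 1 + 1),
        (-1 : ℤ) ^ (d + 1 - j) * ((d + 1).choose j : ℤ) * y (b + j * a), ?_⟩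
      rw [fwdDiff_iter_eq_sum_shift, Int.cast_sum]
      refine Finset.sum_congr rfl fun j hj => ?_
      rw [Finset.mem_range] at hj
      have := hy (b + j * a)
      rw [hc j (by omega)] at this
      simp only [smul_eq_mul, zsmul_eq_mul, hG]
      rw [show b + N1 + j * a = b + j * a + N1 by omega, this]
      push_cast; ring
    have h3 : (fwdDiff a)^[d + 1] (G c) (b + N1) = (fwdDiff a)^[d + 1] (S c) (b + N1) := by
      have e : (fwdDiff a)^[d + 1] ((fun n : ℕ => (P c).eval (n : ℂ)) + S c) (b + N1)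
          = (fwdDiff a)^[d + 1] (G c) (b + N1) := by
        rw [fwdDiff_iter_eq_sum_shift, fwdDiff_iter_eq_sum_shift]
        refine Finset.sum_congr rfl fun j _ => ?_
        rw [hGS c _ (by omega), Pi.add_apply]
      rw [← e, fwdDiff_iter_add, Pi.add_apply, h1, zero_add]
    obtain ⟨m, hm⟩ := h2
    rw [h3] at hm
    have hlt := hN2 (b + N1) (by omega) c a (Finset.mem_Icc.mpr ⟨ha1, haL⟩)
    rw [hm, Complex.norm_intCast] at hlt
    have hm0 : m = 0 := by
      have : |m| < 1 := by exact_mod_cast hlt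
      rwa [Int.abs_lt_one_iff] at this
    rw [hm, hm0, Int.cast_zero]
  -- fix the colour and the common difference
  have hfreq : ∃ᶠ n in atTop, ∃ p ∈ (Finset.univ : Finset ι) ×ˢ Finset.Icc 1 L,
      (∀ j < d + 2, ∃ y : ℤ, G p.1 (n + j * p.2) = y) ∧
        (fwdDiff p.2)^[d + 1] (S p.1) n = 0 := by
    rw [frequently_atTop]
    intro b₀
    obtain ⟨n, hn, i, a, ha, h⟩ := hprog b₀
    exact ⟨n, hn, (i, a), by simp [ha], h⟩
  obtain ⟨⟨i, a⟩, hmem, hp⟩ : ∃ p ∈ (Finset.univ : Finset ι) ×ˢ Finset.Icc 1 L,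
      ∃ᶠ n in atTop, (∀ j < d + 2, ∃ y : ℤ, G p.1 (n + j * p.2) = y) ∧
        (fwdDiff p.2)^[d + 1] (S p.1) n = 0 := by
    by_contra hcon
    push Not at hcon
    have := (Filter.eventually_all_finset _).mpr hcon
    refine hfreq ?_
    filter_upwards [this] with n hn
    rintro ⟨p, hp, h1, h2⟩
    exact hn p hp h1 h2
  have ha1 : 1 ≤ a := (Finset.mem_Icc.mp (Finset.mem_product.mp hmem).2).1
  -- the remainder vanishes
  have hzero : ∀ᶠ n in atTop, S i n = 0 := by
    rcases (hHan i a).eventually_eq_zero_or_eventually_ne_zero with hz | hz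
    · have hev : ∀ᶠ n : ℕ in atTop, H i a ((n : ℂ)⁻¹) = 0 :=
        (tendsto_inv_atTop_nhds_zero_nat (𝕜 := ℂ)).eventually hz
      obtain ⟨M, hM⟩ := eventually_atTop.mp hev
      refine eventually_atTop.mpr ⟨max M 1, fun n hn => ?_⟩
      have := eq_zero_of_fwdDiff_iter_eq_zero (d + 1) (fun j => S i (n + j * a)) ?_ ?_ 0
      · simpa using this
      · refine (hS0 i).comp (tendsto_atTop_mono (fun j => ?_) tendsto_id)
        exact le_trans (Nat.le_mul_of_pos_right j ha1) (Nat.le_add_left _ _)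
      · intro j
        have h1 := hM (n + j * a) (by omega)
        rw [hHS i a _ (by omega), fwdDiff_iter_eq_sum_shift] at h1
        rw [fwdDiff_iter_eq_sum_shift, ← h1]
        refine Finset.sum_congr rfl fun k _ => ?_
        congr 2
        simp only [smul_eq_mul]; ring
    · exfalso
      have h1 : Tendsto (fun n : ℕ => ((n : ℂ))⁻¹) atTop (𝓝[≠] 0) := by
        refine tendsto_nhdsWithin_iff.mpr ⟨tendsto_inv_atTop_nhds_zero_nat, ?_⟩
        filter_upwards [eventually_ge_atTop 1] with n hn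
        exact inv_ne_zero (Nat.cast_ne_zero.mpr (by omega))
      have h2 := (h1.eventually hz).and (eventually_ge_atTop 1)
      obtain ⟨n, ⟨-, hn0⟩, hne, hn1⟩ := (hp.and_eventually h2).exists
      exact hne (by rw [hHS i a n hn1, hn0])
  obtain ⟨M, hM⟩ := eventually_atTop.mp hzero
  obtain ⟨n, ⟨hint, -⟩, hn⟩ := (hp.and_eventually (eventually_ge_atTop (max M 1))).exists
  choose! y' hy' using hint
  set v : ℕ → ℚ := fun j => ((n + j * a : ℕ) : ℚ) with hv
  set PQ : ℚ[X] := Lagrange.interpolate (Finset.range (d + 1)) v (fun j => (y' j : ℚ)) with hPQ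
  have hvi : Set.InjOn v (Finset.range (d + 1) : Set ℕ) := by
    intro j _ k _ h
    simp only [hv, Nat.cast_inj] at h
    exact Nat.eq_of_mul_eq_mul_right ha1 (by omega)
  have hPeq : P i = PQ.map (algebraMap ℚ ℂ) := by
    refine Polynomial.eq_of_degrees_lt_of_eval_index_eq (v := fun j => ((v j : ℚ) : ℂ))
      (Finset.range (d + 1)) ?_ ?_ ?_ ?_
    · exact Rat.cast_injective.comp_injOn hvi
    · refine lt_of_le_of_lt degree_le_natDegree ?_
      rw [Finset.card_range]; exact_mod_cast Nat.lt_succ_of_le (hP i)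
    · refine lt_of_le_of_lt degree_map_le ?_
      exact Lagrange.degree_interpolate_lt _ hvi
    · intro j hj
      have hj' := Finset.mem_range.mp hj
      have h1 : (PQ.map (algebraMap ℚ ℂ)).eval ((v j : ℚ) : ℂ) = ((PQ.eval (v j) : ℚ) : ℂ) := by
        rw [eval_map, ← eq_ratCast (algebraMap ℚ ℂ) (v j), eval₂_at_apply, eq_ratCast]
      rw [h1, hPQ, Lagrange.eval_interpolate_at_node _ hvi hj]
      have h2 := hy' j (by omega)
      rw [hGS i _ (by omega), hM _ (by omega), add_zero] at h2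
      simpa [hv] using h2
  refine ⟨i, PQ, max M 1, fun m hm => ?_⟩
  have := hGS i m (by omega)
  rw [hM m (by omega), add_zero, hPeq, eval_map] at this
  exact this

end Fermat.Agent.Switch3
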