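/-
A one-parameter family of short Weierstrass curves whose discriminant is a constant times the
fifth power of a degree 12 polynomial has no root of the 3-division polynomial in the
polynomial ring.
-/
import Mathlib.NumberTheory.FLT.MasonStothers
import Mathlib.Tactic.LinearCombination
import Mathlib.Tactic.Ring

set_option autoImplicit false

namespace Fermat.Agent.Switch3

open Polynomial UniqueFactorizationMonoid

variable {F : Type*} [Field F] [CharZero F]

/-- the hypotheses on the family -/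
structure GoodFamily (A B D : F[X]) (k : F) : Prop where
  degA : A.natDegree ≤ 20
  degB : B.natDegree ≤ 30
  degD : D.natDegree = 12
  k_ne : k ≠ 0
  coprime : IsCoprime A B
  disc : 4 * A ^ 3 + 27 * B ^ 2 = C k * D ^ 5

namespace GoodFamily

variable {A B D : F[X]} {k : F}

omit [CharZero F] in
lemma D_ne (h : GoodFamily A B D k) : D ≠ 0 := by
  intro h0; have := h.degD; rw [h0] at this; simp at this

omit [CharZero F] in
lemma natDegree_disc (h : GoodFamily A B D k) : (4 * A ^ 3 + 27 * B ^ 2).natDegree = 60 := by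
  rw [h.disc, natDegree_C_mul h.k_ne, natDegree_pow, h.degD]

lemma A_ne (h : GoodFamily A B D k) : A ≠ 0 := by
  intro h0
  have hu : IsUnit B := isCoprime_zero_left.mp (h0 ▸ h.coprime)
  obtain ⟨b, -, hb⟩ := Polynomial.isUnit_iff.mp hu
  have := h.natDegree_disc
  rw [h0, ← hb, show (4 : F[X]) * 0 ^ 3 + 27 * C b ^ 2 = C (27 * b ^ 2) by
    simp [map_mul, map_pow, map_ofNat], natDegree_C] at this
  omega

lemma B_ne (h : GoodFamily A B D k) : B ≠ 0 := by
  intro h0
  have hu : IsUnit A := isCoprime_zero_right.mp (h0 ▸ h.coprime)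
  obtain ⟨b, -, hb⟩ := Polynomial.isUnit_iff.mp hu
  have := h.natDegree_disc
  rw [h0, ← hb, show (4 : F[X]) * C b ^ 3 + 27 * 0 ^ 2 = C (4 * b ^ 3) by
    simp [map_mul, map_pow, map_ofNat], natDegree_C] at this
  omega

/-- no prime divides `D` three times (Mason-Stothers) -/
lemma not_cube_dvd (h : GoodFamily A B D k) {q : F[X]} (hq : Prime q) : ¬ q ^ 3 ∣ D := by
  classical
  rintro ⟨E, hE⟩
  have hqd : 1 ≤ q.natDegree := Nat.succ_le_of_lt (Polynomial.natDegree_pos_iff_degree_pos.mpr
    (degree_pos_of_irreducible hq.irreducible))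
  have hE0 : E ≠ 0 := fun e => h.D_ne (by rw [hE, e, mul_zero])
  have hA := h.A_ne
  have hB := h.B_ne
  set a : F[X] := C 4 * A ^ 3 with ha
  set b : F[X] := C 27 * B ^ 2 with hb
  set c : F[X] := C (-k) * D ^ 5 with hc
  have h4 : (4:F) ≠ 0 := by norm_num
  have h27 : (27:F) ≠ 0 := by norm_num
  have hk : (-k) ≠ 0 := neg_ne_zero.mpr h.k_ne
  have a0 : a ≠ 0 := mul_ne_zero (C_ne_zero.mpr h4) (pow_ne_zero _ hA)
  have b0 : b ≠ 0 := mul_ne_zero (C_ne_zero.mpr h27) (pow_ne_zero _ hB)
  have c0 : c ≠ 0 := mul_ne_zero (C_ne_zero.mpr hk) (pow_ne_zero _ h.D_ne)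
  have hab : IsCoprime a b := by
    rw [ha, hb]
    exact (isCoprime_mul_unit_left_left (Polynomial.isUnit_C.mpr h4.isUnit) _ _).mpr
      ((isCoprime_mul_unit_left_right (Polynomial.isUnit_C.mpr h27.isUnit) _ _).mpr
        (h.coprime.pow (m := 3) (n := 2)))
  have hsum : a + b + c = 0 := by
    simp only [ha, hb, hc, C_neg, map_ofNat]
    linear_combination h.disc
  have hdc : c.natDegree = 60 := by
    rw [hc, natDegree_C_mul hk, natDegree_pow, h.degD]
  rcases Polynomial.abc a0 b0 c0 hab hsum with ⟨-, -, hle⟩ | ⟨-, -, hder⟩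
  · have hne : A * B * (q * E) ≠ 0 := mul_ne_zero (mul_ne_zero hA hB) (mul_ne_zero hq.ne_zero hE0)
    have hdvd : a * b * c ∣ (A * B * (q * E)) ^ 15 := by
      have e1 : a * b * c = C (4 * 27 * (-k)) * ((A ^ 3 * B ^ 2) * (q ^ 15 * E ^ 5)) := by
        rw [ha, hb, hc, hE]; simp only [map_mul]; ring
      rw [e1, (Polynomial.isUnit_C.mpr (by
        exact (mul_ne_zero (mul_ne_zero h4 h27) hk).isUnit)).mul_left_dvd, mul_pow, mul_pow, mul_pow]
      exact mul_dvd_mul (mul_dvd_mul (pow_dvd_pow _ (by norm_num)) (pow_dvd_pow _ (by norm_num)))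
        (mul_dvd_mul dvd_rfl (pow_dvd_pow _ (by norm_num)))
    have h1 : radical (a * b * c) ∣ radical ((A * B * (q * E)) ^ 15) :=
      radical_dvd_radical hdvd (pow_ne_zero _ hne)
    rw [radical_pow _ (by norm_num : (15:ℕ) ≠ 0)] at h1
    have h2 := natDegree_le_of_dvd (h1.trans radical_dvd_self) hne
    rw [natDegree_mul (mul_ne_zero hA hB) (mul_ne_zero hq.ne_zero hE0), natDegree_mul hA hB,
      natDegree_mul hq.ne_zero hE0] at h2
    have h3 : D.natDegree = 3 * q.natDegree + E.natDegree := by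
      rw [hE, natDegree_mul (pow_ne_zero _ hq.ne_zero) hE0, natDegree_pow]
    have := h.degA; have := h.degB; have := h.degD
    omega
  · have := derivative_eq_zero.mp hder
    omega

/-- the 3-division polynomial of `y² = x³ + A x + B` has no root in `F[X]` -/
theorem no_root (h : GoodFamily A B D k) (X' : F[X])
    (hX : 3 * X' ^ 4 + 6 * A * X' ^ 2 + 12 * B * X' - A ^ 2 = 0) : False := by
  have hX0 : X' ≠ 0 := by
    intro e; rw [e] at hX; simp at hX; exact h.A_ne hX
  set P : F[X] := 3 * X' ^ 2 + A with hP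
  have key : -144 * X' ^ 2 * (C k * D ^ 5) = P ^ 3 * (72 * X' ^ 2 - 27 * P) := by
    rw [← h.disc, hP]
    linear_combination (-27 * (12 * B * X' + A ^ 2 - 3 * X' ^ 4 - 6 * A * X' ^ 2)) * hX
  have hkD : C k * D ^ 5 ≠ 0 := mul_ne_zero (C_ne_zero.mpr h.k_ne) (pow_ne_zero _ h.D_ne)
  have hP0 : P ≠ 0 := by
    intro e
    rw [e] at key
    simp at key
    rcases key with h1 | h1 | h1
    · exact hX0 h1
    · exact h.k_ne h1
    · exact h.D_ne h1
  have hcop : IsCoprime P D := by
    refine isCoprime_of_prime_dvd (fun e => hP0 e.1) ?_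
    intro q hq hqP hqD
    have hunit : ∀ m : ℕ, m ≠ 0 → ¬ q ∣ (m : F[X]) := fun m hm hd =>
      hq.not_isUnit (isUnit_of_dvd_unit hd (by
        simpa using (Polynomial.isUnit_C (x := (m : F))).mpr (Nat.cast_ne_zero.mpr hm).isUnit))
    have hqX : ¬ q ∣ X' := by
      intro hqX
      have hqA : q ∣ A := by
        have e : A = P - 3 * X' ^ 2 := by rw [hP]; ring
        rw [e]; exact dvd_sub hqP ((dvd_pow hqX (by norm_num)).mul_left _)
      have hqB : q ∣ B := by
        have e : 27 * B ^ 2 = C k * D ^ 5 - 4 * A ^ 3 := by rw [← h.disc]; ring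
        have e2 : q ∣ 27 * B ^ 2 := by
          rw [e]; exact dvd_sub ((dvd_pow hqD (by norm_num)).mul_left _)
            ((dvd_pow hqA (by norm_num)).mul_left _)
        rcases hq.dvd_mul.mp e2 with h1 | h1
        · exact absurd h1 (hunit 27 (by norm_num))
        · exact hq.dvd_of_dvd_pow h1
      exact hq.not_isUnit (h.coprime.isUnit_of_dvd' hqA hqB)
    have hR : ¬ q ∣ 72 * X' ^ 2 - 27 * P := by
      intro hd
      have e2 : q ∣ 72 * X' ^ 2 := by
        have := dvd_add hd (hqP.mul_left 27)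
        rwa [sub_add_cancel] at this
      rcases hq.dvd_mul.mp e2 with h1 | h1
      · exact hunit 72 (by norm_num) h1
      · exact hqX (hq.dvd_of_dvd_pow h1)
    have hl : ¬ q ∣ -144 * X' ^ 2 * C k := by
      intro hd
      rcases hq.dvd_mul.mp hd with h1 | h1
      · rcases hq.dvd_mul.mp h1 with h2 | h2
        · exact hunit 144 (by norm_num) (by simpa using h2.neg_right)
        · exact hqX (hq.dvd_of_dvd_pow h2)
      · exact hq.not_isUnit (isUnit_of_dvd_unit h1 (Polynomial.isUnit_C.mpr h.k_ne.isUnit))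
    -- compare multiplicities of `q`
    have e1 : emultiplicity q (-144 * X' ^ 2 * C k * D ^ 5)
        = emultiplicity q (P ^ 3 * (72 * X' ^ 2 - 27 * P)) := by
      rw [← key]; ring_nf
    rw [emultiplicity_mul hq (b := D ^ 5), emultiplicity_mul hq (a := P ^ 3),
      emultiplicity_eq_zero.mpr hl, emultiplicity_eq_zero.mpr hR, emultiplicity_pow hq, emultiplicity_pow hq, zero_add,
      add_zero] at e1
    have fD : FiniteMultiplicity q D := FiniteMultiplicity.of_prime_left hq h.D_ne
    have fP : FiniteMultiplicity q P := FiniteMultiplicity.of_prime_left hq hP0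
    rw [fD.emultiplicity_eq_multiplicity, fP.emultiplicity_eq_multiplicity] at e1
    have e2 : 5 * multiplicity q D = 3 * multiplicity q P := by exact_mod_cast e1
    have hpos : 1 ≤ multiplicity q D := by
      exact fD.le_multiplicity_of_pow_dvd
        (k := 1) (by simpa using hqD)
    have h3 : 3 ≤ multiplicity q D := by omega
    exact h.not_cube_dvd hq ((pow_dvd_pow q h3).trans (pow_multiplicity_dvd q D))
  have hdvd : P ^ 3 ∣ X' ^ 2 := by
    have h1 : P ^ 3 ∣ C (-144 * k) * X' ^ 2 * D ^ 5 := by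
      refine ⟨72 * X' ^ 2 - 27 * P, ?_⟩
      rw [← key]; simp only [map_mul, map_neg, map_ofNat]; ring
    have h2 := (hcop.pow (m := 3) (n := 5)).dvd_of_dvd_mul_right h1
    exact (Polynomial.isUnit_C.mpr
      (mul_ne_zero (by norm_num : (-144:F) ≠ 0) h.k_ne).isUnit).dvd_mul_left.mp h2
  have hd1 := natDegree_le_of_dvd hdvd (pow_ne_zero _ hX0)
  rw [natDegree_pow, natDegree_pow] at hd1
  have hdX : X'.natDegree ≤ 10 := by
    by_contra hcon
    have h3 : (3 * X' ^ 2 : F[X]).natDegree = 2 * X'.natDegree := by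
      rw [show (3 : F[X]) = C 3 from (map_ofNat C 3).symm, natDegree_C_mul (by norm_num),
        natDegree_pow]
    have h4 : P.natDegree = 2 * X'.natDegree := by
      rw [hP, natDegree_add_eq_left_of_natDegree_lt (by rw [h3]; have := h.degA; omega), h3]
    omega
  have hrhs : (P ^ 3 * (72 * X' ^ 2 - 27 * P)).natDegree ≤ 18 + 20 := by
    refine natDegree_mul_le.trans (Nat.add_le_add ?_ ?_)
    · rw [natDegree_pow]; omega
    · refine (natDegree_sub_le _ _).trans (max_le ?_ ?_)
      · refine natDegree_mul_le.trans ?_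
        rw [natDegree_ofNat, natDegree_pow]; omega
      · refine natDegree_mul_le.trans ?_
        rw [natDegree_ofNat]; omega
  have hlhs : (-144 * X' ^ 2 * (C k * D ^ 5)).natDegree = 2 * X'.natDegree + 60 := by
    rw [show (-144 * X' ^ 2 : F[X]) = C (-144) * X' ^ 2 by simp [map_ofNat],
      natDegree_mul (mul_ne_zero (C_ne_zero.mpr (by norm_num)) (pow_ne_zero _ hX0)) hkD,
      natDegree_C_mul (by norm_num), natDegree_C_mul h.k_ne, natDegree_pow, natDegree_pow, h.degD]
  rw [key] at hlhs
  omega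

end GoodFamily

end Fermat.Agent.Switch3
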