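/-
Hilbert irreducibility for the rational roots of the 3-division polynomial in a good family.
-/
import Fermat.Agent.Switch3.PolyRoot
import Fermat.Agent.Switch3.IntegerValues
import Mathlib.Analysis.Calculus.ImplicitContDiff
import Mathlib.Analysis.Calculus.Deriv.Polynomial
import Mathlib.Analysis.Complex.Polynomial.Basic
import Mathlib.RingTheory.Localization.Rat
import Mathlib.RingTheory.IntegralClosure.IntegrallyClosed
import Mathlib.Algebra.GCDMonoid.IntegrallyClosed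

set_option autoImplicit false

namespace Fermat.Agent.Switch3

open Filter Topology Polynomial
open scoped ContDiff

/-- the monic 3-division polynomial of `y² = x³ + a x + b`, in the variable `3 x` -/
noncomputable def quartic (a b : ℂ) : ℂ[X] :=
  X ^ 4 + C (18 * a) * X ^ 2 + C (108 * b) * X + C (-27 * a ^ 2)

lemma eval_quartic (a b Y : ℂ) :
    (quartic a b).eval Y = Y ^ 4 + 18 * a * Y ^ 2 + 108 * b * Y - 27 * a ^ 2 := by
  simp [quartic]; ring

lemma natDegree_quartic (a b : ℂ) : (quartic a b).natDegree = 4 := by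
  unfold quartic; compute_degree!

lemma eval_derivative_quartic (a b Y : ℂ) :
    (quartic a b).derivative.eval Y = 4 * Y ^ 3 + 36 * a * Y + 108 * b := by
  simp [quartic, derivative_pow]; ring

/-- the quartic is separable when the discriminant is non-zero -/
lemma derivative_quartic_ne {a b r : ℂ} (hd : 4 * a ^ 3 + 27 * b ^ 2 ≠ 0)
    (hr : (quartic a b).eval r = 0) : 4 * r ^ 3 + 36 * a * r + 108 * b ≠ 0 := by
  intro h
  rw [eval_quartic] at hr
  have hP : (r ^ 2 / 3 + a) = 0 := by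
    have : (r ^ 2 / 3 + a) ^ 2 = 0 := by linear_combination (-1/27 : ℂ) * hr + (r/27) * h
    exact pow_eq_zero_iff (two_ne_zero) |>.mp this
  have ha : a = -(r ^ 2 / 3) := by linear_combination hP
  have hb : b = 2 * (r / 3) ^ 3 := by
    rw [ha] at h; linear_combination (1/108 : ℂ) * h
  apply hd
  rw [ha, hb]; ring

/-- an analytic root of the family of quartics through a simple root at `0` -/
lemma exists_branch {a b : ℂ → ℂ} (ha : ContDiff ℂ ω a) (hb : ContDiff ℂ ω b) (r : ℂ)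
    (hr : (quartic (a 0) (b 0)).eval r = 0)
    (hd : 4 * r ^ 3 + 36 * a 0 * r + 108 * b 0 ≠ 0) :
    ∃ φ : ℂ → ℂ, AnalyticAt ℂ φ 0 ∧ φ 0 = r ∧
      ∀ᶠ z in 𝓝 0, (quartic (a z) (b z)).eval (φ z) = 0 := by
  set f : ℂ × ℂ → ℂ := fun p =>
    p.2 ^ 4 + 18 * a p.1 * p.2 ^ 2 + 108 * b p.1 * p.2 - 27 * a p.1 ^ 2 with hf
  have cdf : ContDiffAt ℂ ω f (0, r) := by
    have h1 : ContDiff ℂ ω f := by fun_prop
    exact h1.contDiffAt
  have hn : (ω : WithTop ℕ∞) ≠ 0 := by simp
  have hfd : HasFDerivAt f (fderiv ℂ f (0, r)) (0, r) :=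
    (cdf.differentiableAt hn).hasFDerivAt
  have hc1 : HasFDerivAt (fun Y : ℂ => ((0 : ℂ), Y)) (ContinuousLinearMap.inr ℂ ℂ ℂ) r :=
    hasFDerivAt_prodMk_right 0 r
  have hcomp := (hfd.comp r hc1).hasDerivAt
  have hp : HasDerivAt (fun Y : ℂ => (quartic (a 0) (b 0)).eval Y)
      (4 * r ^ 3 + 36 * a 0 * r + 108 * b 0) r := by
    rw [← eval_derivative_quartic]; exact Polynomial.hasDerivAt _ _
  have heq : (f ∘ fun Y : ℂ => ((0 : ℂ), Y)) = fun Y : ℂ => (quartic (a 0) (b 0)).eval Y := by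
    funext Y; simp [hf, eval_quartic]
  rw [heq] at hcomp
  have hval := hcomp.unique hp
  have if2 : (fderiv ℂ f (0, r) ∘L ContinuousLinearMap.inr ℂ ℂ ℂ).IsInvertible := by
    refine ⟨ContinuousLinearEquiv.unitsEquivAut ℂ
      (Units.mk0 (4 * r ^ 3 + 36 * a 0 * r + 108 * b 0) hd), ?_⟩
    apply ContinuousLinearMap.ext_ring
    rw [hval]
    simp
  refine ⟨cdf.implicitFunction hn if2, (cdf.contDiffAt_implicitFunction hn if2).analyticAt,
    cdf.implicitFunction_apply_self hn if2, ?_⟩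
  have := cdf.eventually_apply_implicitFunction hn if2
  filter_upwards [this] with z hz
  rw [eval_quartic]
  have h0 : f (0, r) = 0 := by rw [eval_quartic] at hr; simpa [hf] using hr
  rw [h0] at hz
  simpa [hf] using hz

/-- `z ↦ z ^ N * A (1 / z)` -/
noncomputable def reflectEval (N : ℕ) (A : ℚ[X]) (z : ℂ) : ℂ :=
  ∑ j ∈ Finset.range (N + 1), (A.coeff j : ℂ) * z ^ (N - j)

lemma reflectEval_zero (N : ℕ) (A : ℚ[X]) : reflectEval N A 0 = A.coeff N := by
  rw [reflectEval, Finset.sum_eq_single N]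
  · simp
  · intro j hj hne
    rw [Finset.mem_range] at hj
    rw [zero_pow (by omega), mul_zero]
  · simp

lemma pow_mul_reflectEval {N : ℕ} {A : ℚ[X]} (hA : A.natDegree ≤ N) {n : ℕ} (hn : 1 ≤ n) :
    (n : ℂ) ^ N * reflectEval N A ((n : ℂ)⁻¹) = ((A.eval (n : ℚ) : ℚ) : ℂ) := by
  rw [eval_eq_sum_range' (Nat.lt_succ_of_le hA), reflectEval, Finset.mul_sum, Rat.cast_sum]
  refine Finset.sum_congr rfl fun j hj => ?_
  rw [Finset.mem_range] at hj
  have hn0 : (n : ℂ) ≠ 0 := Nat.cast_ne_zero.mpr (by omega)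
  obtain ⟨e, rfl⟩ : ∃ e, N = j + e := ⟨N - j, by omega⟩
  simp only [Nat.add_sub_cancel_left, inv_pow, pow_add, Rat.cast_mul, Rat.cast_pow, Rat.cast_natCast]
  field_simp

lemma contDiff_reflectEval (N : ℕ) (A : ℚ[X]) : ContDiff ℂ ω (reflectEval N A) := by
  unfold reflectEval; fun_prop

/-- **Hilbert irreducibility** for rational roots in a good family. -/
theorem exists_no_root {A B D : ℚ[X]} {k : ℚ} (h : GoodFamily A B D k) (N : ℕ)
    (hint : ∀ n : ℕ, N ≤ n → ∃ u v : ℤ, A.eval (n : ℚ) = u ∧ B.eval (n : ℚ) = v) :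
    ∃ n : ℕ, N ≤ n ∧ ∀ x : ℚ,
      3 * x ^ 4 + 6 * A.eval (n : ℚ) * x ^ 2 + 12 * B.eval (n : ℚ) * x - A.eval (n : ℚ) ^ 2 ≠ 0 := by
  by_contra hcon
  push Not at hcon
  set a0 : ℚ := A.coeff 20 with ha0
  set b0 : ℚ := B.coeff 30 with hb0
  have hd0 : 4 * a0 ^ 3 + 27 * b0 ^ 2 ≠ 0 := by
    have e : (4 * A ^ 3 + 27 * B ^ 2).coeff 60 = 4 * a0 ^ 3 + 27 * b0 ^ 2 := by
      rw [coeff_add, coeff_ofNat_mul, coeff_ofNat_mul,
        show (60:ℕ) = 3 * 20 from rfl, coeff_pow_of_natDegree_le h.degA,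
        show 3 * 20 = 2 * 30 from rfl, coeff_pow_of_natDegree_le h.degB]
    rw [← e]
    have h60 := h.natDegree_disc
    rw [← h60]
    exact leadingCoeff_ne_zero.mpr (fun e => by rw [e] at h60; simp at h60)
  set a : ℂ → ℂ := reflectEval 20 A with ha
  set b : ℂ → ℂ := reflectEval 30 B with hb
  have hdC : 4 * a 0 ^ 3 + 27 * b 0 ^ 2 ≠ 0 := by
    rw [ha, hb, reflectEval_zero, reflectEval_zero]
    exact_mod_cast hd0
  set q0 := quartic (a 0) (b 0) with hq0
  have hq0deg : q0.natDegree = 4 := natDegree_quartic _ _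
  have hq0ne : q0 ≠ 0 := fun e => by rw [e] at hq0deg; simp at hq0deg
  have hnodup : q0.roots.Nodup := by
    rw [Polynomial.nodup_roots_iff_of_splits hq0ne (IsAlgClosed.splits _),
      PerfectField.separable_iff_squarefree]
    rw [← PerfectField.separable_iff_squarefree, Polynomial.separable_def]
    refine isCoprime_of_dvd _ _ (fun e => hq0ne e.1) fun z hz1 hz2 hzd hzd' => ?_
    obtain ⟨r, hr⟩ := IsAlgClosed.exists_root z (fun e => hz1
      (Polynomial.isUnit_iff_degree_eq_zero.mpr e))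
    have e1 := hr.dvd hzd
    have e2 := hr.dvd hzd'
    rw [IsRoot.def, eval_derivative_quartic] at e2
    exact derivative_quartic_ne hdC e1 e2
  have hbr : ∀ r : {r // r ∈ q0.roots.toFinset}, ∃ φ : ℂ → ℂ, AnalyticAt ℂ φ 0 ∧ φ 0 = r.1 ∧
      ∀ᶠ z in 𝓝 0, (quartic (a z) (b z)).eval (φ z) = 0 := by
    intro r
    have hr : q0.eval r.1 = 0 := by
      have := r.2; rw [Multiset.mem_toFinset, mem_roots hq0ne] at this; exact this
    exact exists_branch (contDiff_reflectEval _ _) (contDiff_reflectEval _ _) r.1 hr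
      (derivative_quartic_ne hdC hr)
  choose φ hφan hφ0 hφroot using hbr
  have hcard : Fintype.card {r // r ∈ q0.roots.toFinset} = 4 := by
    rw [Fintype.card_coe, Multiset.toFinset_card_of_nodup hnodup,
      IsAlgClosed.card_roots_eq_natDegree, hq0deg]
  -- near `0` the branches exhaust all roots
  have hall : ∀ᶠ z in 𝓝 (0:ℂ), ∀ Y : ℂ, (quartic (a z) (b z)).eval Y = 0 → ∃ r, φ r z = Y := by
    have hroot := Filter.eventually_all.mpr hφroot
    have hsep : ∀ᶠ z in 𝓝 (0:ℂ), ∀ p : {r // r ∈ q0.roots.toFinset} × {r // r ∈ q0.roots.toFinset},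
        p.1 ≠ p.2 → φ p.1 z ≠ φ p.2 z := by
      rw [Filter.eventually_all]
      intro p
      rcases eq_or_ne p.1 p.2 with e | e
      · exact Eventually.of_forall fun z hz => absurd e hz
      · have : ∀ᶠ z in 𝓝 (0:ℂ), φ p.1 z - φ p.2 z ≠ 0 :=
          ((hφan p.1).continuousAt.sub (hφan p.2).continuousAt).eventually_ne (by
            rw [Pi.sub_apply, hφ0, hφ0, sub_ne_zero]
            exact fun h => e (Subtype.ext h))
        filter_upwards [this] with z hz _ h
        exact hz (sub_eq_zero.mpr h)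
    filter_upwards [hroot, hsep] with z hz hs Y hY
    have hqne : quartic (a z) (b z) ≠ 0 := fun e => by
      have := natDegree_quartic (a z) (b z); rw [e] at this; simp at this
    have hinj : Function.Injective fun r => φ r z := fun r s hrs => by
      by_contra hne; exact hs (r, s) hne hrs
    by_contra hno
    push Not at hno
    have hsub : insert Y (Finset.univ.image fun r => φ r z) ⊆
        (quartic (a z) (b z)).roots.toFinset := by
      intro w hw
      rw [Finset.mem_insert, Finset.mem_image] at hw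
      rw [Multiset.mem_toFinset, mem_roots hqne]
      rcases hw with rfl | ⟨r, -, rfl⟩
      · exact hY
      · exact hz r
    have h1 := (Finset.card_le_card hsub).trans
      ((Multiset.toFinset_card_le _).trans (card_roots' _))
    rw [Finset.card_insert_of_notMem (by simpa using hno), Finset.card_image_of_injective _ hinj,
      Finset.card_univ, hcard, natDegree_quartic] at h1
    omega
  have hev : ∀ᶠ n : ℕ in atTop,
      ∀ Y : ℂ, (quartic (a (n : ℂ)⁻¹) (b (n : ℂ)⁻¹)).eval Y = 0 → ∃ r, φ r (n : ℂ)⁻¹ = Y :=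
    (tendsto_inv_atTop_nhds_zero_nat (𝕜 := ℂ)).eventually hall
  obtain ⟨N1, hN1⟩ := eventually_atTop.mp hev
  have hA' : ∀ n : ℕ, 1 ≤ n → ((A.eval (n : ℚ) : ℚ) : ℂ) = (n : ℂ) ^ 20 * a (n : ℂ)⁻¹ :=
    fun n hn => (pow_mul_reflectEval h.degA hn).symm
  have hB' : ∀ n : ℕ, 1 ≤ n → ((B.eval (n : ℚ) : ℚ) : ℂ) = (n : ℂ) ^ 30 * b (n : ℂ)⁻¹ :=
    fun n hn => (pow_mul_reflectEval h.degB hn).symm
  have hits : ∀ n : ℕ, max (max N N1) 1 ≤ n →
      ∃ r, ∃ y : ℤ, (n : ℂ) ^ 10 * φ r ((n : ℂ)⁻¹) = y := by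
    intro n hn
    obtain ⟨x, hx⟩ := hcon n (by omega)
    obtain ⟨u, v, hu, hv⟩ := hint n (by omega)
    have hx3 : IsIntegral ℤ (3 * x) := by
      refine ⟨X ^ 4 + C (18 * u) * X ^ 2 + C (108 * v) * X + C (-27 * u ^ 2), by monicity!, ?_⟩
      rw [hu, hv] at hx
      simp only [eval₂_add, eval₂_mul, eval₂_pow, eval₂_X, eval₂_C, algebraMap_int_eq]
      simp only [eq_intCast, Int.cast_mul, Int.cast_pow, Int.cast_neg, Int.cast_ofNat]
      linear_combination 27 * hx
    obtain ⟨y, hy⟩ := IsIntegrallyClosed.isIntegral_iff.mp hx3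
    rw [algebraMap_int_eq, eq_intCast] at hy
    have hn0 : (n : ℂ) ≠ 0 := Nat.cast_ne_zero.mpr (by omega)
    have hyC : (y : ℂ) ^ 4 + 18 * ((A.eval (n : ℚ) : ℚ) : ℂ) * (y : ℂ) ^ 2
        + 108 * ((B.eval (n : ℚ) : ℚ) : ℂ) * (y : ℂ) - 27 * ((A.eval (n : ℚ) : ℚ) : ℂ) ^ 2 = 0 := by
      have : (y : ℚ) ^ 4 + 18 * A.eval (n : ℚ) * (y : ℚ) ^ 2 + 108 * B.eval (n : ℚ) * (y : ℚ)
          - 27 * A.eval (n : ℚ) ^ 2 = 0 := by rw [hy]; linear_combination 27 * hx
      exact_mod_cast congrArg (fun q : ℚ => (q : ℂ)) this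
    rw [hA' n (by omega), hB' n (by omega)] at hyC
    obtain ⟨r, hr⟩ := hN1 n (by omega) ((y : ℂ) / (n : ℂ) ^ 10) (by
      rw [eval_quartic]
      field_simp
      simp only [one_div] at *
      linear_combination hyC)
    exact ⟨r, y, by rw [hr, mul_div_cancel₀ _ (pow_ne_zero _ hn0)]⟩
  obtain ⟨r, P, N', hP⟩ := exists_poly_branch 10 φ hφan _ hits
  have hroot : ∀ᶠ n : ℕ in atTop,
      (quartic (a (n : ℂ)⁻¹) (b (n : ℂ)⁻¹)).eval (φ r (n : ℂ)⁻¹) = 0 :=
    (tendsto_inv_atTop_nhds_zero_nat (𝕜 := ℂ)).eventually (hφroot r)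
  obtain ⟨M, hM⟩ := eventually_atTop.mp hroot
  set Z : ℚ[X] := P ^ 4 + 18 * A * P ^ 2 + 108 * B * P - 27 * A ^ 2 with hZ
  have hZ0 : Z = 0 := by
    refine eq_zero_of_infinite_isRoot Z (Set.Infinite.mono (s := (fun n : ℕ => (n : ℚ)) ''
      Set.Ici (max (max N' M) 1)) ?_ ((Set.Ici_infinite _).image Nat.cast_injective.injOn))
    rintro _ ⟨n, hn, rfl⟩
    rw [Set.mem_Ici] at hn
    have h1 := hP n (by omega)
    rw [show ((n : ℂ)) = algebraMap ℚ ℂ (n : ℚ) by simp, eval₂_at_apply, map_natCast] at h1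
    have h2 := hM n (by omega)
    rw [eval_quartic] at h2
    have e : ((Z.eval (n : ℚ) : ℚ) : ℂ) = 0 := by
      simp only [hZ, eval_sub, eval_add, eval_mul, eval_pow, eval_ofNat, Rat.cast_sub,
        Rat.cast_add, Rat.cast_mul, Rat.cast_pow, Rat.cast_ofNat, hA' n (by omega),
        hB' n (by omega)]
      rw [eq_ratCast] at h1
      rw [← h1]
      linear_combination ((n : ℂ) ^ 40) * h2
    show Z.eval (n : ℚ) = 0
    exact_mod_cast e
  refine h.no_root (C (1/3 : ℚ) * P) ?_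
  have e3 : (3 : ℚ[X]) * (C (1/3 : ℚ) * P) = P := by
    rw [← mul_assoc, ← map_ofNat C 3, ← C_mul]; norm_num
  have : (27 : ℚ[X]) * (3 * (C (1/3 : ℚ) * P) ^ 4 + 6 * A * (C (1/3 : ℚ) * P) ^ 2
      + 12 * B * (C (1/3 : ℚ) * P) - A ^ 2) = 0 := by
    rw [← hZ0, hZ]
    generalize C (1/3 : ℚ) * P = T at e3
    rw [← e3]; ring
  exact (mul_eq_zero.mp this).resolve_left (by norm_num)

end Fermat.Agent.Switch3
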