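/-
A reducible mod 3 representation forces a rational root of the 3-division polynomial.
-/
import Fermat.Prelude.Def_FLTPrelim_ModularRep
import Mathlib.FieldTheory.Galois.Infinite
import Mathlib.FieldTheory.Perfect
import Mathlib.FieldTheory.IsAlgClosed.AlgebraicClosure
import Mathlib.FieldTheory.IsAlgClosed.Basic
import Mathlib.LinearAlgebra.Dimension.Finite
import Mathlib.Algebra.Polynomial.Roots
import Mathlib.FieldTheory.Finiteness
import Mathlib.Tactic.FieldSimp

set_option autoImplicit false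

namespace Fermat.Agent.Switch3

open Polynomial
open WeierstrassCurve

lemma zmod_three_cases : ∀ c : ZMod 3, c = 0 ∨ c = 1 ∨ c = -1 := by decide

section Field

variable {K : Type*} [Field K] [DecidableEq K] (E : WeierstrassCurve.Affine K)

/-- the 3-division polynomial as a function -/
def psiThree (x : K) : K :=
  3 * x ^ 4 + E.b₂ * x ^ 3 + 3 * E.b₄ * x ^ 2 + 3 * E.b₆ * x + E.b₈

/-- numerator of the tangent slope -/
def tangentNum (x y : K) : K := 3 * x ^ 2 + 2 * E.a₂ * x + E.a₄ - E.a₁ * y

omit [DecidableEq K] in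
lemma tangent_identity {x y : K} (h : E.Equation x y) :
    tangentNum E x y ^ 2 + E.a₁ * tangentNum E x y * (2 * y + E.a₁ * x + E.a₃)
      - (E.a₂ + 3 * x) * (2 * y + E.a₁ * x + E.a₃) ^ 2 = -psiThree E x := by
  rw [WeierstrassCurve.Affine.equation_iff] at h
  simp only [tangentNum, psiThree, WeierstrassCurve.b₂, WeierstrassCurve.b₄, WeierstrassCurve.b₆,
    WeierstrassCurve.b₈]
  linear_combination (-(E.a₁ ^ 2 + 4 * E.a₂ + 12 * x)) * h

lemma addX_self_sub {x y : K} (h : E.Equation x y) (hy : y ≠ E.negY x y) :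
    (E.addX x x (E.slope x x y y) - x) * (2 * y + E.a₁ * x + E.a₃) ^ 2 = -psiThree E x := by
  have hp : 2 * y + E.a₁ * x + E.a₃ ≠ 0 := by
    intro e; apply hy
    rw [WeierstrassCurve.Affine.negY]; linear_combination e
  rw [← tangent_identity E h, WeierstrassCurve.Affine.slope_of_Y_ne rfl hy,
    WeierstrassCurve.Affine.addX, WeierstrassCurve.Affine.negY,
    show y - (-y - E.a₁ * x - E.a₃) = 2 * y + E.a₁ * x + E.a₃ by ring]
  generalize 2 * y + E.a₁ * x + E.a₃ = d at hp ⊢
  simp only [tangentNum]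
  field_simp
  ring

lemma psiThree_eq_zero_of_three_smul {x y : K} (h : E.Nonsingular x y)
    (h3 : (3 : ℤ) • WeierstrassCurve.Affine.Point.some x y h = 0) : psiThree E x = 0 := by
  have hy : y ≠ E.negY x y := by
    intro hy
    have h2 := WeierstrassCurve.Affine.Point.add_self_of_Y_eq (h₁ := h) hy
    rw [show (3:ℤ) = 1 + 1 + 1 by norm_num, add_smul, add_smul, one_smul, h2, zero_add] at h3
    exact WeierstrassCurve.Affine.Point.some_ne_zero h h3
  rw [show (3:ℤ) = 1 + 1 + 1 by norm_num, add_smul, add_smul, one_smul, add_eq_zero_iff_eq_neg,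
    WeierstrassCurve.Affine.Point.add_self_of_Y_ne hy, WeierstrassCurve.Affine.Point.neg_some]
    at h3
  injection h3 with hx
  have := addX_self_sub E h.left hy
  rw [hx, sub_self, zero_mul] at this
  exact neg_eq_zero.mp this.symm

lemma three_smul_eq_zero_of_psiThree {x y : K} (h : E.Nonsingular x y)
    (hpsi : psiThree E x = 0) : (3 : ℤ) • WeierstrassCurve.Affine.Point.some x y h = 0 := by
  have hy : y ≠ E.negY x y := by
    intro hy
    rw [WeierstrassCurve.Affine.negY] at hy
    have hp : 2 * y + E.a₁ * x + E.a₃ = 0 := by linear_combination hy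
    have ht := tangent_identity E h.left
    rw [hp, hpsi, neg_zero] at ht
    have hn : tangentNum E x y = 0 := by
      have : tangentNum E x y ^ 2 = 0 := by linear_combination ht
      exact pow_eq_zero_iff two_ne_zero |>.mp this
    rcases (E.nonsingular_iff x y).mp h with ⟨-, h1 | h1⟩
    · apply h1; simp only [tangentNum] at hn; linear_combination -hn
    · apply h1; linear_combination hp
  rw [show (3:ℤ) = 1 + 1 + 1 by norm_num, add_smul, add_smul, one_smul]
  have h2 := WeierstrassCurve.Affine.Point.add_self_of_Y_ne (h₁ := h) hy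
  have hx : E.addX x x (E.slope x x y y) = x := by
    have := addX_self_sub E h.left hy
    rw [hpsi, neg_zero, mul_eq_zero, sub_eq_zero] at this
    refine this.resolve_right (pow_ne_zero _ fun e => hy ?_)
    rw [WeierstrassCurve.Affine.negY]; linear_combination e
  have hns := WeierstrassCurve.Affine.nonsingular_add h h (fun hxy => hy hxy.2)
  rcases WeierstrassCurve.Affine.Y_eq_of_X_eq hns.left h.left hx with e | e
  · exfalso
    have h4 : WeierstrassCurve.Affine.Point.some x y h + WeierstrassCurve.Affine.Point.some x y h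
        = WeierstrassCurve.Affine.Point.some x y h := by
      rw [h2]; simp only [hx, e]
    exact WeierstrassCurve.Affine.Point.some_ne_zero h
      (add_left_cancel (h4.trans (add_zero _).symm))
  · rw [add_eq_zero_iff_eq_neg, h2, WeierstrassCurve.Affine.Point.neg_some]
    simp only [hx, e]

lemma exists_three_torsion [IsAlgClosed K] (h3 : (3 : K) ≠ 0) (hΔ : E.Δ ≠ 0) :
    ∃ (x y : K) (h : E.Nonsingular x y),
      (3 : ℤ) • WeierstrassCurve.Affine.Point.some x y h = 0 := by
  obtain ⟨x, hx⟩ := IsAlgClosed.exists_root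
    (C 3 * X ^ 4 + C E.b₂ * X ^ 3 + C (3 * E.b₄) * X ^ 2 + C (3 * E.b₆) * X + C E.b₈)
    (by
      have : (C 3 * X ^ 4 + C E.b₂ * X ^ 3 + C (3 * E.b₄) * X ^ 2 + C (3 * E.b₆) * X
          + C E.b₈).natDegree = 4 := by compute_degree!
      intro e
      rw [natDegree_eq_zero_iff_degree_le_zero.mpr e.le] at this
      omega)
  obtain ⟨y, hy⟩ := IsAlgClosed.exists_root
    (X ^ 2 + C (E.a₁ * x + E.a₃) * X + C (-(x ^ 3 + E.a₂ * x ^ 2 + E.a₄ * x + E.a₆)))
    (by
      have : (X ^ 2 + C (E.a₁ * x + E.a₃) * X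
          + C (-(x ^ 3 + E.a₂ * x ^ 2 + E.a₄ * x + E.a₆))).natDegree = 2 := by compute_degree!
      intro e
      rw [natDegree_eq_zero_iff_degree_le_zero.mpr e.le] at this
      omega)
  simp only [IsRoot.def, eval_add, eval_mul, eval_pow, eval_X, eval_C] at hx hy
  have he : E.Equation x y := by
    rw [WeierstrassCurve.Affine.equation_iff]; linear_combination hy
  have hns := (E.equation_iff_nonsingular_of_Δ_ne_zero hΔ).mp he
  exact ⟨x, y, hns, three_smul_eq_zero_of_psiThree E hns hx⟩

open scoped Classical in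
lemma finite_three_torsion (h3 : (3 : K) ≠ 0) :
    ∃ _ : Finite (Submodule.torsionBy ℤ E.Point ((3:ℕ):ℤ)),
      Nat.card (Submodule.torsionBy ℤ E.Point ((3:ℕ):ℤ)) ≤ 9 := by
  set p : K[X] := C 3 * X ^ 4 + C E.b₂ * X ^ 3 + C (3 * E.b₄) * X ^ 2 + C (3 * E.b₆) * X + C E.b₈
  set q : K → K[X] := fun x =>
    X ^ 2 + C (E.a₁ * x + E.a₃) * X + C (-(x ^ 3 + E.a₂ * x ^ 2 + E.a₄ * x + E.a₆))
  have hp : p.natDegree = 4 := by simp only [p]; compute_degree!
  have hq : ∀ x, (q x).natDegree = 2 := fun x => by simp only [q]; compute_degree!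
  have hp0 : p ≠ 0 := fun e => by rw [e] at hp; simp at hp
  have hq0 : ∀ x, q x ≠ 0 := fun x e => by have := hq x; rw [e] at this; simp at this
  set T : Finset (Option (K × K)) := insert none
    ((p.roots.toFinset.biUnion fun x => (q x).roots.toFinset.image fun y => (x, y)).map
      ⟨some, Option.some_injective _⟩)
  have hT : T.card ≤ 9 := by
    refine (Finset.card_insert_le _ _).trans ?_
    rw [Finset.card_map]
    have := Finset.card_biUnion_le_card_mul p.roots.toFinset
      (fun x => (q x).roots.toFinset.image fun y => (x, y)) 2 (fun x _ =>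
        Finset.card_image_le.trans ((Multiset.toFinset_card_le _).trans
          ((card_roots' _).trans (hq x).le)))
    have h4 : p.roots.toFinset.card ≤ 4 :=
      (Multiset.toFinset_card_le _).trans ((card_roots' _).trans hp.le)
    omega
  let f : Submodule.torsionBy ℤ E.Point ((3:ℕ):ℤ) → {t // t ∈ T} := fun P =>
    match P with
    | ⟨.zero, _⟩ => ⟨none, Finset.mem_insert_self _ _⟩
    | ⟨.some x y h, hP⟩ => ⟨some (x, y), by
        refine Finset.mem_insert_of_mem ?_
        simp only [Finset.mem_map, Finset.mem_biUnion, Finset.mem_image, Multiset.mem_toFinset,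
          Function.Embedding.coeFn_mk]
        refine ⟨(x, y), ⟨x, ?_, y, ?_, rfl⟩, rfl⟩
        · rw [mem_roots hp0]
          rw [Submodule.mem_torsionBy_iff] at hP
          have := psiThree_eq_zero_of_three_smul E h (by simpa using hP)
          simp only [psiThree] at this
          simp [p, this]
        · rw [mem_roots (hq0 x)]
          have := (E.equation_iff x y).mp h.left
          simp only [IsRoot.def, q, eval_add, eval_mul, eval_pow, eval_X, eval_C]
          linear_combination this⟩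
  have hf : Function.Injective f := by
    rintro ⟨_ | ⟨x, y, h⟩, hP⟩ ⟨_ | ⟨x', y', h'⟩, hP'⟩ e <;>
      simp [f] at e ⊢
    exact ⟨e.1, e.2⟩
  have hfin : Finite (Submodule.torsionBy ℤ E.Point ((3:ℕ):ℤ)) := Finite.of_injective f hf
  refine ⟨hfin, (Nat.card_le_card_of_injective f hf).trans ?_⟩
  simpa using hT

end Field

open WeierstrassCurve.Affine.Point in
/-- A Galois stable line in `E[3]` gives a rational root of the 3-division polynomial. -/
theorem exists_psiThree_root (V : WeierstrassCurve.Affine ℚ) (hΔ : V.Δ ≠ 0)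
    (h : ¬ GaloisRepIsIrreducible (K := AlgebraicClosure ℚ) ℚ V 3) :
    ∃ q : ℚ, psiThree V q = 0 := by
  set E : WeierstrassCurve.Affine (AlgebraicClosure ℚ) := (V⁄(AlgebraicClosure ℚ)).toAffine with hE
  haveI : Fact (Nat.Prime 3) := ⟨Nat.prime_three⟩
  have h3 : (3 : AlgebraicClosure ℚ) ≠ 0 := by norm_num
  have hEΔ : E.Δ ≠ 0 := by
    show (WeierstrassCurve.map V (algebraMap ℚ (AlgebraicClosure ℚ))).Δ ≠ 0
    rw [WeierstrassCurve.map_Δ]
    simpa using hΔ
  obtain ⟨hfin, hcard⟩ := finite_three_torsion E h3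
  obtain ⟨x₀, y₀, hns₀, hP₀⟩ := exists_three_torsion E h3 hEΔ
  have hnt : Nontrivial (Submodule.torsionBy ℤ E.Point ((3:ℕ):ℤ)) := by
    refine ⟨⟨⟨WeierstrassCurve.Affine.Point.some x₀ y₀ hns₀,
      (Submodule.mem_torsionBy_iff _ _).mpr hP₀⟩, 0, ?_⟩⟩
    intro e
    exact WeierstrassCurve.Affine.Point.some_ne_zero hns₀ (congrArg Subtype.val e)
  rw [GaloisRepIsIrreducible, not_and] at h
  have hred := h hnt
  push Not at hred
  obtain ⟨N, hN, hbot, htop⟩ := hred
  obtain ⟨P, hPN, hP0⟩ := N.ne_bot_iff.mp hbot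
  have hline : N = Submodule.span (ZMod 3) {P} := by
    haveI : Module.Finite (ZMod 3) (Submodule.torsionBy ℤ E.Point ((3:ℕ):ℤ)) :=
      Module.Finite.of_finite
    have hV : Module.finrank (ZMod 3) (Submodule.torsionBy ℤ E.Point ((3:ℕ):ℤ)) ≤ 2 := by
      have e := Module.natCard_eq_pow_finrank (K := ZMod 3)
        (V := Submodule.torsionBy ℤ E.Point ((3:ℕ):ℤ))
      rw [Nat.card_zmod] at e
      by_contra hc
      have : 3 ^ 3 ≤ 3 ^ _ := Nat.pow_le_pow_right (by norm_num : 3 > 0) (Nat.lt_of_not_le hc)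
      rw [← e] at this
      omega
    have h1 : Module.finrank (ZMod 3) N <
        Module.finrank (ZMod 3) (Submodule.torsionBy ℤ E.Point ((3:ℕ):ℤ)) := Submodule.finrank_lt htop
    refine (Submodule.eq_of_le_of_finrank_le ((Submodule.span_singleton_le_iff_mem _ _).mpr hPN)
      ?_).symm
    rw [finrank_span_singleton hP0]
    omega
  obtain ⟨_ | ⟨x, y, hns⟩, hmem⟩ := P
  · exact absurd rfl hP0
  have hfix : ∀ σ : (AlgebraicClosure ℚ) ≃ₐ[ℚ] (AlgebraicClosure ℚ), σ x = x := by
    intro σ
    have hσ := hN σ _ hPN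
    rw [hline, Submodule.mem_span_singleton] at hσ
    obtain ⟨c, hc⟩ := hσ
    have hc3 : c = 0 ∨ c = 1 ∨ c = -1 := zmod_three_cases c
    rcases hc3 with rfl | rfl | rfl
    · rw [zero_smul] at hc
      have hval := congrArg Subtype.val hc
      exact absurd hval.symm (WeierstrassCurve.Affine.Point.some_ne_zero _)
    · rw [one_smul] at hc
      have hval := congrArg Subtype.val hc
      injection hval with e
      exact e.symm
    · rw [neg_smul, one_smul] at hc
      have hval := congrArg Subtype.val hc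
      rw [Submodule.coe_neg, WeierstrassCurve.Affine.Point.neg_some] at hval
      injection hval with e
      exact e.symm
  haveI : IsAlgClosure ℚ (AlgebraicClosure ℚ) := AlgebraicClosure.instIsAlgClosure ℚ
  obtain ⟨q, hq⟩ := (InfiniteGalois.mem_range_algebraMap_iff_fixed x).mpr hfix
  have hps := psiThree_eq_zero_of_three_smul E hns ((Submodule.mem_torsionBy_iff _ _).mp hmem)
  subst hq
  refine ⟨q, (algebraMap ℚ (AlgebraicClosure ℚ)).injective ?_⟩
  rw [_root_.map_zero]
  refine Eq.trans ?_ hps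
  simp [psiThree, hE, WeierstrassCurve.baseChange]

/-- If the mod 3 representation of an integral curve is reducible then the 3-division polynomial of
its short model has a rational root. -/
theorem exists_root_of_not_irreducible (W : WeierstrassCurve ℤ) (hΔ : W.Δ ≠ 0)
    (h : ¬ W.ModRepIsIrreducible 3) :
    ∃ x : ℚ, 3 * x ^ 4 + 6 * ((-27 * W.c₄ : ℤ) : ℚ) * x ^ 2 + 12 * ((-54 * W.c₆ : ℤ) : ℚ) * x
      - ((-27 * W.c₄ : ℤ) : ℚ) ^ 2 = 0 := by
  set V : WeierstrassCurve ℚ := W.map (Int.castRingHom ℚ) with hV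
  obtain ⟨q, hq⟩ := exists_psiThree_root V (by
    show V.Δ ≠ 0
    rw [hV, WeierstrassCurve.map_Δ]; simpa using hΔ) h
  have hq' : 3 * q ^ 4 + V.b₂ * q ^ 3 + 3 * V.b₄ * q ^ 2 + 3 * V.b₆ * q + V.b₈ = 0 := hq
  refine ⟨36 * q + 3 * V.b₂, ?_⟩
  have e4 : ((W.c₄ : ℤ) : ℚ) = V.c₄ := by rw [hV, WeierstrassCurve.map_c₄]; rfl
  have e6 : ((W.c₆ : ℤ) : ℚ) = V.c₆ := by rw [hV, WeierstrassCurve.map_c₆]; rfl
  push_cast
  rw [e4, e6, WeierstrassCurve.c₄, WeierstrassCurve.c₆]
  linear_combination 1679616 * hq' - 419904 * V.b_relation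

end Fermat.Agent.Switch3
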