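/-
The 3-5 switch keeping the reduction at prescribed primes.
-/
import Fermat.Agent.Switch.Family
import Fermat.Agent.Switch3.Branch
import Fermat.Agent.Switch3.ThreeTorsion

set_option autoImplicit false

namespace Fermat.Agent.Switch3

open WeierstrassCurve

/-- The 3-5 switch, with the reduction and the valuation of the discriminant of `W` at every prime
dividing `6 m₀ Δ`. -/
theorem exists_switched_curve_congruent (W : WeierstrassCurve ℤ) (hΔ : W.Δ ≠ 0)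
    (hW : W.IsSemistableModel) (h5 : W.ModRepIsIrreducible 5) (m₀ : ℕ) (hm₀ : m₀ ≠ 0) :
    ∃ W' : WeierstrassCurve ℤ, W'.Δ ≠ 0 ∧ W'.IsSemistableModel ∧ W'.ModRepIsIrreducible 3 ∧
      (∀ ℓ : ℕ, ℓ.Prime → W.IsGoodPrimeFor ℓ → W'.IsGoodPrimeFor ℓ → ℓ ≠ 5 →
        (5 : ℤ) ∣ (W'.apOfModel ℓ - W.apOfModel ℓ)) ∧
      ∀ q : ℕ, q.Prime → (q : ℤ) ∣ 6 * (m₀ : ℤ) * W.Δ →
        W'.reductionMod q = W.reductionMod q ∧ padicValInt q W'.Δ = padicValInt q W.Δ ∧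
          ((q : ℤ) ∣ W'.Δ ↔ (q : ℤ) ∣ W.Δ) := by
  obtain ⟨A, B, D, k, N, hA, hB, hD, hk, hcop, hdisc, hfam⟩ :=
    Switch.exists_switch_family_congruent W hΔ hW h5 m₀ hm₀
  obtain ⟨n, hn, hno⟩ := exists_no_root ⟨hA, hB, hD, hk, hcop, hdisc⟩ N (fun n hn => by
    obtain ⟨W', -, -, h1, h2, -⟩ := hfam n hn
    exact ⟨_, _, h1, h2⟩)
  obtain ⟨W', hΔ', hW', h1, h2, hcong, hred⟩ := hfam n hn
  refine ⟨W', hΔ', hW', ?_, hcong, fun q hq h6 => ?_⟩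
  · by_contra h
    obtain ⟨x, hx⟩ := exists_root_of_not_irreducible W' hΔ' h
    rw [← h1, ← h2] at hx
    exact hno x hx
  obtain ⟨hmap, hval⟩ := hred q hq h6
  refine ⟨hmap, hval, ?_⟩
  have h := congrArg WeierstrassCurve.Δ hmap
  simp only [reductionMod, map_Δ, eq_intCast] at h
  rw [← ZMod.intCast_zmod_eq_zero_iff_dvd, ← ZMod.intCast_zmod_eq_zero_iff_dvd, h]

/-- The 3-5 switch keeping multiplicative reduction at `2` and the reduction type at `5`. -/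
theorem exists_switched_curve_two_five (W : WeierstrassCurve ℤ) (hΔ : W.Δ ≠ 0)
    (hW : W.IsSemistableModel) (h5 : W.ModRepIsIrreducible 5) :
    ∃ W' : WeierstrassCurve ℤ, W'.Δ ≠ 0 ∧ W'.IsSemistableModel ∧ W'.ModRepIsIrreducible 3 ∧
      (∀ ℓ : ℕ, ℓ.Prime → W.IsGoodPrimeFor ℓ → W'.IsGoodPrimeFor ℓ → ℓ ≠ 5 →
        (5 : ℤ) ∣ (W'.apOfModel ℓ - W.apOfModel ℓ)) ∧
      ((2 : ℤ) ∣ W.Δ → (2 : ℤ) ∣ W'.Δ) ∧ (W'.IsGoodPrimeFor 5 ↔ W.IsGoodPrimeFor 5) := by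
  obtain ⟨W', hΔ', hW', h3, hcong, hred⟩ :=
    exists_switched_curve_congruent W hΔ hW h5 5 (by norm_num)
  refine ⟨W', hΔ', hW', h3, hcong, ?_, ?_⟩
  · intro h2
    obtain ⟨-, -, h⟩ := hred 2 Nat.prime_two ⟨3 * 5 * W.Δ, by push_cast; ring⟩
    exact_mod_cast h.2 (by exact_mod_cast h2)
  · obtain ⟨-, -, h⟩ := hred 5 Nat.prime_five ⟨6 * W.Δ, by push_cast; ring⟩
    unfold IsGoodPrimeFor
    exact not_congr h

end Fermat.Agent.Switch3
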