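/-
A member of the switching family with irreducible mod 3 representation.
-/
import Fermat.Agent.Switch.Family
import Fermat.Agent.Switch3.Branch
import Fermat.Agent.Switch3.ThreeTorsion

set_option autoImplicit false

namespace Fermat.Agent.Switch3

open WeierstrassCurve

/-- The 3-5 switch. -/
theorem exists_switched_curve (W : WeierstrassCurve ℤ) (hΔ : W.Δ ≠ 0) (hW : W.IsSemistableModel)
    (h5 : W.ModRepIsIrreducible 5) :
    ∃ W' : WeierstrassCurve ℤ, W'.Δ ≠ 0 ∧ W'.IsSemistableModel ∧ W'.ModRepIsIrreducible 3 ∧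
      ∀ ℓ : ℕ, ℓ.Prime → W.IsGoodPrimeFor ℓ → W'.IsGoodPrimeFor ℓ → ℓ ≠ 5 →
        (5 : ℤ) ∣ (W'.apOfModel ℓ - W.apOfModel ℓ) := by
  obtain ⟨A, B, D, k, N, hA, hB, hD, hk, hcop, hdisc, hfam⟩ :=
    Switch.exists_switch_family W hΔ hW h5
  obtain ⟨n, hn, hno⟩ := exists_no_root ⟨hA, hB, hD, hk, hcop, hdisc⟩ N (fun n hn => by
    obtain ⟨W', -, -, h1, h2, -⟩ := hfam n hn
    exact ⟨_, _, h1, h2⟩)
  obtain ⟨W', hΔ', hW', h1, h2, hcong⟩ := hfam n hn
  refine ⟨W', hΔ', hW', ?_, hcong⟩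
  by_contra hred
  obtain ⟨x, hx⟩ := exists_root_of_not_irreducible W' hΔ' hred
  rw [← h1, ← h2] at hx
  exact hno x hx

end Fermat.Agent.Switch3
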